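import Fermat.Agent.Ribet.H580.IAOldSpec
import Fermat.Agent.Ribet.H158.WallQGood

/-!
# Row 37, IA-OLD, leaf EIS-q-pow (subtask 749): STRUCTURAL EIS-q at modulus `p ^ n` (helper765)

Target: `H580.IAOld.EisSlopeQPowStatement` (no eigen hypothesis; conclusion with the explicit
exceptional set `(q M' p).primeFactors`).

The EIS-q core of helper158 (`H158.WallQ.isEisModQ_of_slopePropQM'`) never uses the eigen
hypothesis: it is only an input of CORE-OUT-q.  So the structural form needs exactly ONE new
Prop: CORE-OUT-q WITHOUT the hypothesis `EigenAt` (the tame node relation does not use it).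

## Leaves (frozen here)
| leaf | Prop | content |
|---|---|---|
| CORE-OUT-q, structural, all levels  | `CoreOutQStructStatement`     | `x` new, `p ^ n x = 0`, `I`-fixed ⇒ `SlopePropQM (p ^ n) q M' A x` |
| CORE-OUT-q, structural, good levels | `CoreOutQStructGoodStatement` | the same under `H158.WallQ.WallQHyp p n q M'` |

## Proved here (sorry-free)
* `coreOutQPow_of_struct`, `coreOutQGood_of_struct` : the structural forms imply helper158's
  official CORE-OUT-q leaves (one proof serves both walls);
* `coreOutQStructGood_of_all`;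
* **`eisSlopeQPow_of_struct`** : `CoreOutQStruct → HeckeFun → HeckeNodeGenQPow → UnitEis →
  CuspPurityQPow → RedExists → RedUnique → RedField → H580.IAOld.EisSlopeQPowStatement`;
* **`eisSlopeQStructGood_of`** : the same at good levels (`EisSlopeQStructGoodStatement`), from
  `CoreOutQStructGood` and helper158's `CuspPurityQGoodStatement`;
* `eisSlopeQStructGood_of_pow`, `eisSlopeQGood_of_struct`.

In the HARD case `q ≡ 1 mod p` with `p ≥ 5`, so `q ≥ 11`: every level is good and the good-level
form is all that IA-OLD needs.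
-/

set_option autoImplicit false
set_option synthInstance.maxHeartbeats 400000
set_option maxHeartbeats 1000000
set_option linter.unusedSectionVars false

noncomputable section

namespace Fermat.Agent.Ribet.H765

open AlgebraicCurve ModularCurve HahnSeries
open Fermat.Agent.S24 Fermat.Agent.A2.H708 Fermat.Agent.A2.H528 Fermat.Agent.A2.H129
open Fermat.Agent.Ribet Fermat.Agent.Ribet.Spec Fermat.Agent.Ribet.H944.Wall
open Fermat.Agent.Ribet.H884 Fermat.Agent.S37.H400
open Fermat.Agent.Ribet.H158.WallQ

/-! ## Leaves -/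

/-- **CORE-OUT-q, structural form** (tame node relation, torsion order `p ^ n`, all levels):
NO eigen hypothesis. -/
def CoreOutQStructStatement : Prop :=
  ∀ (p n q M' : ℕ) [NeZero M'] [NeZero q] [NeZero (q * M')], p.Prime → 5 ≤ p → 0 < n →
    q.Prime → q ≠ 2 → q ≠ p → ¬ q ∣ M' →
    ∀ A : ValuationSubring Kbar, A.LiesOverPrime q →
    ∀ x : JZero (q * M'), IsNewTorsQ (p ^ n) q M' x →
      (∀ σ ∈ A.inertiaSubgroupIn ℚ, σ • x = x) →
      SlopePropQM (p ^ n) q M' A x

/-- **CORE-OUT-q, structural form, good levels.** -/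
def CoreOutQStructGoodStatement : Prop :=
  ∀ (p n q M' : ℕ) [NeZero M'] [NeZero q] [NeZero (q * M')], WallQHyp p n q M' →
    ∀ A : ValuationSubring Kbar, A.LiesOverPrime q →
    ∀ x : JZero (q * M'), IsNewTorsQ (p ^ n) q M' x →
      (∀ σ ∈ A.inertiaSubgroupIn ℚ, σ • x = x) →
      SlopePropQM (p ^ n) q M' A x

/-- **EIS-q-pow, structural form, good levels** (`H580.IAOld.EisSlopeQPowStatement` under
`WallQHyp`). -/
def EisSlopeQStructGoodStatement : Prop :=
  ∀ (p n q M' : ℕ) [NeZero M'] [NeZero q] [NeZero (q * M')], WallQHyp p n q M' →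
    ∀ A : ValuationSubring Kbar, A.LiesOverPrime q →
    ∀ x : JZero (q * M'), IsNewTorsQ (p ^ n) q M' x →
      (∀ σ ∈ A.inertiaSubgroupIn ℚ, σ • x = x) →
      IsEisModQ (p ^ n) q M' A (q * M' * p).primeFactors x

/-! ## The structural forms imply the official leaves of WALL-q -/

theorem coreOutQPow_of_struct (h : CoreOutQStructStatement) : CoreOutQPowStatement :=
  fun p n q M' _ _ _ hp hp5 hn hq hq2 hqp hqM A hA _ _ x hx _ hfix =>
    h p n q M' hp hp5 hn hq hq2 hqp hqM A hA x hx hfix

theorem coreOutQGood_of_struct (h : CoreOutQStructGoodStatement) : CoreOutQGoodStatement :=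
  fun p n q M' _ _ _ hh A hA _ _ x hx _ hfix => h p n q M' hh A hA x hx hfix

theorem coreOutQStructGood_of_all (h : CoreOutQStructStatement) :
    CoreOutQStructGoodStatement :=
  fun p n q M' _ _ _ hh A hA x hx hfix =>
    h p n q M' hh.p_prime hh.five_le hh.n_pos hh.q_prime hh.q_ne_two hh.q_ne_p hh.not_dvd
      A hA x hx hfix

/-! ## Glue -/

/-- **EIS-q-pow (subtask 749) from its leaves**, all levels. -/
theorem eisSlopeQPow_of_struct (hCO : CoreOutQStructStatement) (hHF : HeckeFunStatement)
    (hHN : HeckeNodeGenQPowStatement) (hU : UnitEisStatement) (hCP : CuspPurityQPowStatement)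
    (hRE : RedExistsStatement) (hRU : RedUniqueStatement) (hRF : RedFieldStatement) :
    Fermat.Agent.Ribet.H580.IAOld.EisSlopeQPowStatement := by
  intro p q M' n _ _ _ hp hp5 hn hq hq2 hqp hqM A hA x hx hfix
  exact isEisModQ_of_slopePropQM hHF hHN hU hCP hRE hRU hRF p n q M' hp hn hq hqp hqM A hA x
    (hCO p n q M' hp hp5 hn hq hq2 hqp hqM A hA x hx hfix)

/-- **EIS-q-pow, structural, at good levels from its leaves.** -/
theorem eisSlopeQStructGood_of (hCO : CoreOutQStructGoodStatement) (hHF : HeckeFunStatement)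
    (hHN : HeckeNodeGenQPowStatement) (hU : UnitEisStatement) (hCP : CuspPurityQGoodStatement)
    (hRE : RedExistsStatement) (hRU : RedUniqueStatement) (hRF : RedFieldStatement) :
    EisSlopeQStructGoodStatement := by
  intro p n q M' _ _ _ h A hA x hx hfix
  refine isEisModQ_of_slopePropQM' hHF hU hRE hRU hRF (p ^ n) p q M' h.p_prime.ne_zero
    h.q_prime h.not_dvd A hA ?_ ?_ x (hCO p n q M' h A hA x hx hfix)
  · intro ℓ _ hℓ f g hg hf
    exact hHN p n q M' h.p_prime h.n_pos h.q_prime h.q_ne_p h.not_dvd A hA ℓ hℓ f g hg hf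
  · intro g y hg hN
    exact hCP p n q M' h A hA g y hg hN

/-- The all-levels POW-leaf of helper580 implies the good-level form. -/
theorem eisSlopeQStructGood_of_pow
    (h : Fermat.Agent.Ribet.H580.IAOld.EisSlopeQPowStatement) :
    EisSlopeQStructGoodStatement :=
  fun p n q M' _ _ _ hh A hA x hx hfix =>
    h p q M' n hh.p_prime hh.five_le hh.n_pos hh.q_prime hh.q_ne_two hh.q_ne_p hh.not_dvd
      A hA x hx hfix

/-- The structural good-level form implies helper158's `EisSlopeQGoodStatement`. -/
theorem eisSlopeQGood_of_struct (h : EisSlopeQStructGoodStatement) :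
    EisSlopeQGoodStatement :=
  fun p n q M' _ _ _ hh A hA _ _ x hx _ hfix =>
    ⟨(q * M' * p).primeFactors, h p n q M' hh A hA x hx hfix⟩

end Fermat.Agent.Ribet.H765

end
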