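import Fermat.Agent.Ribet.H765.EisQ5
import Fermat.Agent.Ribet.H399.CuspGen

/-!
# Row 37, WALL-q / IA-OLD: CUSP-q and EIS-q-pow for `q ≥ 5`, CUSP-GEN plugged in (helper765)

* `cuspGen5Statement : CuspGen5Statement` (= `H399.cuspGen5`, on main);
* **`cuspPurityQ5_top`** : CUSP-q for ANY torsion order `m > 0` at `q ≥ 5`, UNCONDITIONAL;
* **`eisSlopeQStruct5`** : `CoreOutQStruct5Statement → EisSlopeQStruct5Statement`
  (structural EIS-q at modulus `p ^ n`, `q ≥ 5`: ONLY structural CORE-OUT-q is open).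
-/

set_option autoImplicit false

noncomputable section

namespace Fermat.Agent.Ribet.H765

open AlgebraicCurve ModularCurve HahnSeries
open Fermat.Agent.S24 Fermat.Agent.A2.H708 Fermat.Agent.A2.H528 Fermat.Agent.A2.H129
open Fermat.Agent.Ribet.H884 Fermat.Agent.Ribet.H158.WallQ

/-- CUSP-GEN (`H399.cuspGen5`). -/
theorem cuspGen5Statement : CuspGen5Statement :=
  fun m q M' _ _ _ hq hq5 hqM hm A hA g hg0 hdiv r hr h hh Q hQ =>
    Fermat.Agent.Ribet.H399.cuspGen5 m q M' hq hq5 hqM hm A hA g hg0 hdiv r hr h hh Q hQ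

/-- **CUSP-q for `q ≥ 5`, any torsion order `m > 0`**, unconditional. -/
theorem cuspPurityQ5_top (m q M' : ℕ) [NeZero M'] [NeZero q] [NeZero (q * M')] (hm : 0 < m)
    (hq : q.Prime) (hq5 : 5 ≤ q) (hqM : ¬ q ∣ M')
    (A : ValuationSubring Kbar) (hA : A.LiesOverPrime q)
    (g : FF (q * M')) (y : JZero (q * M')) (hK : IsKummerGen (q * M') m g y)
    (hNG : NodeGenQ m q M' A g) : FinGenQ m q M' A g :=
  cuspPurityQ5 cuspGen5Statement m q M' hm hq hq5 hqM A hA g y hK hNG

/-- **EIS-q-pow, structural, `q ≥ 5`: only structural CORE-OUT-q is open.** -/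
theorem eisSlopeQStruct5 (hCO : CoreOutQStruct5Statement) : EisSlopeQStruct5Statement :=
  eisSlopeQStruct5_of_coreOut cuspGen5Statement hCO

end Fermat.Agent.Ribet.H765

end
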