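import Fermat.Agent.Ribet.H765.IAOldEisTop
import Fermat.Agent.Ribet.H765.EisQ5Top
import Fermat.Agent.Ribet.H868.CoreOutQStruct
import Fermat.Agent.Ribet.H644.CuspPurityQGood

/-!
# Row 37, WALL-q / IA-OLD: leaf EIS-q CLOSED at good levels (helper765, subtask 749)

All inputs are on main: structural CORE-OUT-q (`H868.coreOutQStructGood`), CUSP-q
(`H644.cuspPurityQGood`), HECKE-FUN, HECKE-NODE-q, UNIT-EIS, RED (plugged in `IAOldEisTop`).

* **`eisSlopeQStructGood : EisSlopeQStructGoodStatement`** — structural EIS-q at modulus `p ^ n`,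
  good levels (`5 ≤ q`, or `q = 3` and `2 ∣ M'`): the input of `H580.IAOld.iaOldGood_of_good`;
* **`eisSlopeQGood : H158.WallQ.EisSlopeQGoodStatement`** — helper158's eigen form, VERBATIM;
* `eisSlopeQStruct5Closed : EisSlopeQStruct5Statement` — the same for `q ≥ 5`.
-/

set_option autoImplicit false

namespace Fermat.Agent.Ribet.H765

open Fermat.Agent.Ribet.H884 Fermat.Agent.Ribet.H158.WallQ

/-- **EIS-q, structural, good levels, modulus `p ^ n`**: UNCONDITIONAL. -/
theorem eisSlopeQStructGood : EisSlopeQStructGoodStatement :=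
  eisSlopeQStructGood_of_walls Fermat.Agent.Ribet.H868.coreOutQStructGood
    Fermat.Agent.Ribet.H644.cuspPurityQGood

/-- **EIS-q (helper158's `EisSlopeQGoodStatement`, VERBATIM)**: UNCONDITIONAL. -/
theorem eisSlopeQGood : EisSlopeQGoodStatement :=
  eisSlopeQGood_of_walls Fermat.Agent.Ribet.H868.coreOutQStructGood
    Fermat.Agent.Ribet.H644.cuspPurityQGood

/-- **EIS-q, structural, `q ≥ 5`, modulus `p ^ n`**: UNCONDITIONAL. -/
theorem eisSlopeQStruct5Closed : EisSlopeQStruct5Statement :=
  eisSlopeQStruct5 (coreOutQStruct5_of_good Fermat.Agent.Ribet.H868.coreOutQStructGood)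

end Fermat.Agent.Ribet.H765
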