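import Fermat.Agent.Ribet.H765.IAOldEisTop

/-!
# Row 37, WALL-q / IA-OLD: CUSP-q and EIS-q-pow for `q ≥ 5` (helper765)

helper399's CUSP-GEN (`H399.cuspGen5`, `cuspGen5_zero`, on main) is generic in the torsion order
`m > 0` and in the residue prime `q ≥ 5`; here it is the hypothesis `CuspGen5Statement` (so that
this file has a small closure), plugged in `EisQ5Top.lean`.  Hence:

* `CuspGen5Statement` : the statement of `H399.cuspGen5` (reductions on `C∞`);
* **`cuspPurityQ5`** : CUSP-q for ANY torsion order `m > 0` at a prime `q ≥ 5`, `q ∤ M'`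
  (Kummer generator + `NodeGenQ` ⟹ `FinGenQ`), from CUSP-GEN;
* `cuspPurityQPow5` : the shape of `H158.WallQ.CuspPurityQPowStatement` with the extra
  hypothesis `5 ≤ q`;
* **`eisSlopeQStruct5_of_coreOut`** : structural EIS-q at modulus `p ^ n` for `q ≥ 5` from
  CUSP-GEN and structural CORE-OUT-q (`CoreOutQStruct5Statement → EisSlopeQStruct5Statement`);
* `coreOutQStruct5_of_good`, `eisSlopeQStruct5_of_good`.

In the HARD case `q ≡ 1 mod p`, `p ≥ 5`, so `q ≥ 11`: IA-OLD needs only the forms with `5 ≤ q`.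
The case `q = 3` (`2 ∣ M'`) of helper158's good levels is NOT covered here (the good-reduction
input at level `M'` needs an auxiliary level there).
-/

set_option autoImplicit false
set_option synthInstance.maxHeartbeats 400000
set_option maxHeartbeats 1000000
set_option linter.unusedSectionVars false

noncomputable section

namespace Fermat.Agent.Ribet.H765

open AlgebraicCurve ModularCurve HahnSeries
open Fermat.Agent.S24 Fermat.Agent.A2.H708 Fermat.Agent.A2.H528 Fermat.Agent.A2.H129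
open Fermat.Agent.Ribet Fermat.Agent.Ribet.Spec Fermat.Agent.Ribet.H944.Wall
open Fermat.Agent.Ribet.H884 Fermat.Agent.S37.H400
open Fermat.Agent.Ribet.H158.WallQ

/-- **CUSP-GEN**, `q ≥ 5`, reductions on `C∞` (the statement of `H399.cuspGen5`). -/
def CuspGen5Statement : Prop :=
  ∀ (m q M' : ℕ) [NeZero M'] [NeZero q] [NeZero (q * M')], q.Prime → 5 ≤ q → ¬ q ∣ M' → 0 < m →
    ∀ A : ValuationSubring Kbar, A.LiesOverPrime q →
    ∀ g : FF (q * M'), g ≠ 0 → (∀ v : Place Kbar (FF (q * M')), (m : ℤ) ∣ v.ord g) →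
    ∀ r : LaurentSeries (kA A), IsRedInf (q * M') A g r →
    ∀ h : modularFunctionFieldFullC (kA A) M', (h : LaurentSeries (kA A)) = r →
    ∀ Q : Place (kA A) (modularFunctionFieldFullC (kA A) M'),
      Q.ord (jC (kA A) M') < 0 → (m : ℤ) ∣ Q.ord h

/-- the divisor of `w_N g` is divisible by `m` if the divisor of `g` is. -/
theorem dvd_ord_wF765 (N : ℕ) [NeZero N] (m : ℕ) (g : FF N)
    (hdiv : ∀ v : Place Kbar (FF N), (m : ℤ) ∣ v.ord g) (v : Place Kbar (FF N)) :
    (m : ℤ) ∣ v.ord (wF N g) := by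
  have h := Place.ord_smul (wF N) ((wF N)⁻¹ • v) g
  rw [smul_inv_smul] at h
  rw [h]
  exact hdiv _

/-- **CUSP-q for `q ≥ 5`, any torsion order `m > 0`** (purity at the cusps). -/
theorem cuspPurityQ5 (hgen : CuspGen5Statement) (m q M' : ℕ) [NeZero M'] [NeZero q] [NeZero (q * M')] (hm : 0 < m)
    (hq : q.Prime) (hq5 : 5 ≤ q) (hqM : ¬ q ∣ M')
    (A : ValuationSubring Kbar) (hA : A.LiesOverPrime q)
    (g : FF (q * M')) (y : JZero (q * M')) (hK : IsKummerGen (q * M') m g y)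
    (hNG : NodeGenQ m q M' A g) : FinGenQ m q M' A g := by
  obtain ⟨r₁, r₂, h1, h2, h3, h4⟩ := hNG
  obtain ⟨hg0, D, -, hD⟩ := hK
  have hdiv : ∀ v : Place Kbar (FF (q * M')), (m : ℤ) ∣ v.ord g := fun v => ⟨_, hD v⟩
  refine ⟨r₁, r₂, h1, h2, ?_, ?_⟩
  · obtain ⟨h, hh, h0, hfin⟩ := h3
    refine ⟨h, hh, h0, fun Q => ?_⟩
    by_cases hQ : 0 ≤ Q.ord (jC (kA A) M')
    · exact hfin Q hQ
    · exact hgen m q M' hq hq5 hqM hm A hA g hg0 hdiv r₁ h1 h hh Q (not_le.mp hQ)
  · obtain ⟨h, hh, h0, hfin⟩ := h4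
    refine ⟨h, hh, h0, fun Q => ?_⟩
    by_cases hQ : 0 ≤ Q.ord (jC (kA A) M')
    · exact hfin Q hQ
    · exact hgen m q M' hq hq5 hqM hm A hA (wF (q * M') g)
        (by rwa [Ne, map_eq_zero_iff _ (wF (q * M')).injective])
        (dvd_ord_wF765 (q * M') m g hdiv) r₂ h2 h hh Q (not_le.mp hQ)

/-- **CUSP-q for `p ^ n`, `q ≥ 5`**: `H158.WallQ.CuspPurityQPowStatement` with the extra
hypothesis `5 ≤ q`. -/
theorem cuspPurityQPow5 (hgen : CuspGen5Statement) (p n q M' : ℕ) [NeZero M'] [NeZero q]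
    [NeZero (q * M')] (hp : p.Prime) (hq : q.Prime) (hq5 : 5 ≤ q) (hqM : ¬ q ∣ M')
    (A : ValuationSubring Kbar) (hA : A.LiesOverPrime q)
    (g : FF (q * M')) (y : JZero (q * M')) (hK : IsKummerGen (q * M') (p ^ n) g y)
    (hNG : NodeGenQ (p ^ n) q M' A g) : FinGenQ (p ^ n) q M' A g :=
  cuspPurityQ5 hgen (p ^ n) q M' (pow_pos hp.pos n) hq hq5 hqM A hA g y hK hNG

/-! ## EIS-q-pow for `q ≥ 5` from CORE-OUT-q alone -/

/-- **CORE-OUT-q, structural form, `q ≥ 5`** (tame node relation, torsion order `p ^ n`). -/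
def CoreOutQStruct5Statement : Prop :=
  ∀ (p n q M' : ℕ) [NeZero M'] [NeZero q] [NeZero (q * M')], p.Prime → 5 ≤ p → 0 < n →
    q.Prime → 5 ≤ q → q ≠ p → ¬ q ∣ M' →
    ∀ A : ValuationSubring Kbar, A.LiesOverPrime q →
    ∀ x : JZero (q * M'), IsNewTorsQ (p ^ n) q M' x →
      (∀ σ ∈ A.inertiaSubgroupIn ℚ, σ • x = x) →
      SlopePropQM (p ^ n) q M' A x

/-- **EIS-q-pow, structural form, `q ≥ 5`**: `H580.IAOld.EisSlopeQPowStatement` with `5 ≤ q`
instead of `q ≠ 2`. -/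
def EisSlopeQStruct5Statement : Prop :=
  ∀ (p n q M' : ℕ) [NeZero M'] [NeZero q] [NeZero (q * M')], p.Prime → 5 ≤ p → 0 < n →
    q.Prime → 5 ≤ q → q ≠ p → ¬ q ∣ M' →
    ∀ A : ValuationSubring Kbar, A.LiesOverPrime q →
    ∀ x : JZero (q * M'), IsNewTorsQ (p ^ n) q M' x →
      (∀ σ ∈ A.inertiaSubgroupIn ℚ, σ • x = x) →
      IsEisModQ (p ^ n) q M' A (q * M' * p).primeFactors x

theorem coreOutQStruct5_of_good (h : CoreOutQStructGoodStatement) :
    CoreOutQStruct5Statement :=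
  fun p n q M' _ _ _ hp hp5 hn hq hq5 hqp hqM A hA x hx hfix =>
    h p n q M' ⟨hp, hp5, hn, hq, by omega, hqp, hqM, Or.inl hq5⟩ A hA x hx hfix

/-- **EIS-q-pow for `q ≥ 5`: only structural CORE-OUT-q is open** (CUSP-GEN is on main). -/
theorem eisSlopeQStruct5_of_coreOut (hgen : CuspGen5Statement)
    (hCO : CoreOutQStruct5Statement) :
    EisSlopeQStruct5Statement := by
  intro p n q M' _ _ _ hp hp5 hn hq hq5 hqp hqM A hA x hx hfix
  refine isEisModQ_of_slopePropQM' Fermat.Agent.Ribet.H398.heckeFun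
    Fermat.Agent.Ribet.H67.unitEis Fermat.Agent.Ribet.H997.redExists
    Fermat.Agent.Ribet.H997.redUnique Fermat.Agent.Ribet.H997.redField (p ^ n) p q M'
    hp.ne_zero hq hqM A hA ?_ ?_ x (hCO p n q M' hp hp5 hn hq hq5 hqp hqM A hA x hx hfix)
  · intro ℓ _ hℓ f g hg hf
    exact Fermat.Agent.Ribet.H699.heckeNodeGenQPow p n q M' hp hn hq hqp hqM A hA ℓ hℓ f g hg hf
  · intro g y hg hN
    exact cuspPurityQPow5 hgen p n q M' hp hq hq5 hqM A hA g y hg hN

/-- The same from the good-level form of structural CORE-OUT-q. -/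
theorem eisSlopeQStruct5_of_good (hgen : CuspGen5Statement)
    (hCO : CoreOutQStructGoodStatement) : EisSlopeQStruct5Statement :=
  eisSlopeQStruct5_of_coreOut hgen (coreOutQStruct5_of_good hCO)

end Fermat.Agent.Ribet.H765

end
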