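import Fermat.Agent.Ribet.H765.IAOldEis
import Fermat.Agent.Ribet.H398.HeckeFun
import Fermat.Agent.Ribet.H699.HeckeNodeGenQ
import Fermat.Agent.Ribet.H67.UnitEis
import Fermat.Agent.Ribet.H997.RedField

/-!
# Row 37, IA-OLD, leaf EIS-q-pow (subtask 749): the glue with the closed leaves plugged in
  (helper765)

Plugged in (all on main, the SAME copies as the S44 top `H884.EisAt`): HECKE-FUN `H398.heckeFun`,
HECKE-NODE-q `H699.heckeNodeGenQPow`, UNIT-EIS `H67.unitEis`, RED `H997.redExists/redUnique/
redField`.  OPEN inputs: structural CORE-OUT-q and CUSP-q only.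

* `eisSlopeQStructGood_of_walls : CoreOutQStructGood → H158 CuspPurityQGood →
    EisSlopeQStructGood`;
* `eisSlopeQPow_of_walls : CoreOutQStruct → H158 CuspPurityQPow →
    H580.IAOld.EisSlopeQPowStatement` (verbatim target of subtask 749);
* `eisSlopeQGood_of_walls` : helper158's `EisSlopeQGoodStatement` from the same two inputs.
-/

set_option autoImplicit false

namespace Fermat.Agent.Ribet.H765

open Fermat.Agent.Ribet.H884 Fermat.Agent.Ribet.H158.WallQ

/-- **EIS-q-pow, structural, good levels**: only CORE-OUT-q (structural) and CUSP-q are open. -/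
theorem eisSlopeQStructGood_of_walls (hCO : CoreOutQStructGoodStatement)
    (hCP : CuspPurityQGoodStatement) : EisSlopeQStructGoodStatement :=
  eisSlopeQStructGood_of hCO Fermat.Agent.Ribet.H398.heckeFun
    Fermat.Agent.Ribet.H699.heckeNodeGenQPow Fermat.Agent.Ribet.H67.unitEis hCP
    Fermat.Agent.Ribet.H997.redExists Fermat.Agent.Ribet.H997.redUnique
    Fermat.Agent.Ribet.H997.redField

/-- **EIS-q-pow (`H580.IAOld.EisSlopeQPowStatement`, all levels)**: only CORE-OUT-q (structural)
and CUSP-q are open. -/
theorem eisSlopeQPow_of_walls (hCO : CoreOutQStructStatement)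
    (hCP : CuspPurityQPowStatement) : Fermat.Agent.Ribet.H580.IAOld.EisSlopeQPowStatement :=
  eisSlopeQPow_of_struct hCO Fermat.Agent.Ribet.H398.heckeFun
    Fermat.Agent.Ribet.H699.heckeNodeGenQPow Fermat.Agent.Ribet.H67.unitEis hCP
    Fermat.Agent.Ribet.H997.redExists Fermat.Agent.Ribet.H997.redUnique
    Fermat.Agent.Ribet.H997.redField

/-- helper158's `EisSlopeQGoodStatement` from the same two inputs. -/
theorem eisSlopeQGood_of_walls (hCO : CoreOutQStructGoodStatement)
    (hCP : CuspPurityQGoodStatement) : EisSlopeQGoodStatement :=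
  eisSlopeQGood_of_struct (eisSlopeQStructGood_of_walls hCO hCP)

end Fermat.Agent.Ribet.H765
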